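import Mathlib
import Fermat.Statements.S42
import Fermat.Prelude.Def_GaloisRep_Residual
import Fermat.Agent.S13.Assembly
import Fermat.Agent.S13.GalFin
import Fermat.Agent.S13.TorMain

/-!
# S42 from S29

`s42_of_attach` : the statement S42 (`EigenformResidualAttachmentAt` for the prime of a Frey
package and every level) from the statement of S29 (residual representations attached to
normalised eigenforms), given as a hypothesis.

* `s42_frey_level` : the `p`-division points of the Frey curve are fixed by the absolute Galois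
  group of a finite normal extension of `ℚ` (finiteness of `E[p]`, `S13/TorMain.lean`);
* `s42_exists_field` : a finite normal subextension of `ℚ̄/ℚ`, as a number field `F` with
  the instances required by the statement;
* `s42_trace_of_charpoly`, `s42_det_of_charpoly` : trace and determinant from the
  characteristic polynomial in rank `2`.
-/

set_option autoImplicit false
set_option linter.style.haveILetI false

namespace Fermat.Agent.S42

open WeierstrassCurve WeierstrassCurve.Affine WeierstrassCurve.Affine.Point Polynomial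
open Fermat.Agent.S13

local notation "Qb" => AlgebraicClosure ℚ
local notation "Γ" => (AlgebraicClosure ℚ ≃ₐ[ℚ] AlgebraicClosure ℚ)

/-- trace from the characteristic polynomial, rank `2`. -/
theorem s42_trace_of_charpoly {R M : Type} [CommRing R] [Nontrivial R] [AddCommGroup M]
    [Module R M] [Module.Free R M] [Module.Finite R M]
    (h2 : Module.finrank R M = 2) (f : M →ₗ[R] M) (a b : R)
    (h : f.charpoly = X ^ 2 - C a * X + C b) : LinearMap.trace R M f = a := by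
  classical
  let bas := Module.Free.chooseBasis R M
  have hcard : Fintype.card (Module.Free.ChooseBasisIndex R M) = 2 := by
    rw [← Module.finrank_eq_card_chooseBasisIndex, h2]
  have : Nonempty (Module.Free.ChooseBasisIndex R M) := by
    rw [← Fintype.card_pos_iff, hcard]; norm_num
  rw [LinearMap.trace_eq_matrix_trace R bas, Matrix.trace_eq_neg_charpoly_coeff,
    LinearMap.charpoly_toMatrix, h, hcard]
  simp [coeff_C]

/-- determinant from the characteristic polynomial, rank `2`. -/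
theorem s42_det_of_charpoly {R M : Type} [CommRing R] [AddCommGroup M]
    [Module R M] [Module.Free R M] [Module.Finite R M]
    (h2 : Module.finrank R M = 2) (f : M →ₗ[R] M) (a b : R)
    (h : f.charpoly = X ^ 2 - C a * X + C b) : LinearMap.det f = b := by
  rw [LinearMap.det_eq_sign_charpoly_coeff, h2, h]
  simp [coeff_C]

/-- **The `p`-division field of the Frey curve has finite level.** -/
theorem s42_frey_level (P : FreyPackage) :
    ∃ M : IntermediateField ℚ Qb, FiniteDimensional ℚ M ∧ Normal ℚ M ∧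
      ∀ σ : Γ, (∀ x ∈ M, σ x = x) →
        ∀ x : Submodule.torsionBy ℤ (P.freyCurve⁄Qb).Point P.p, σ • x = x := by
  classical
  have hc := tor_card_le (P.freyCurve⁄Qb) P.hp_odd
  have hfin : Finite (Submodule.torsionBy ℤ (P.freyCurve⁄Qb).Point P.p) := hc.1
  let _ : Fintype (Submodule.torsionBy ℤ (P.freyCurve⁄Qb).Point P.p) := Fintype.ofFinite _
  let SX : Finset Qb := Finset.univ.image
    (fun x : Submodule.torsionBy ℤ (P.freyCurve⁄Qb).Point P.p =>
      asmX (x : (P.freyCurve⁄Qb).Point))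
  let SY : Finset Qb := Finset.univ.image
    (fun x : Submodule.torsionBy ℤ (P.freyCurve⁄Qb).Point P.p =>
      asmY (x : (P.freyCurve⁄Qb).Point))
  obtain ⟨M, hMfd, hMn, hMS⟩ := exists_normal_finite (SX ∪ SY)
  refine ⟨M, hMfd, hMn, fun σ hσ x => ?_⟩
  apply asm_smul_eq_of_fix P σ x
  intro x₀ y₀ h hx
  constructor
  · apply hσ
    apply hMS
    have : x₀ ∈ SX := Finset.mem_image.mpr ⟨x, Finset.mem_univ _, by rw [hx]; rfl⟩
    exact Finset.mem_union_left _ this
  · apply hσ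
    apply hMS
    have : y₀ ∈ SY := Finset.mem_image.mpr ⟨x, Finset.mem_univ _, by rw [hx]; rfl⟩
    exact Finset.mem_union_right _ this

/-- a finite normal subextension `L` of `ℚ̄/ℚ` as a number field with the instances of the
statement: an automorphism in the kernel of the restriction to `L` fixes `L` pointwise. -/
theorem s42_exists_field (L : IntermediateField ℚ Qb) (hfd : FiniteDimensional ℚ L)
    (hn : Normal ℚ L) :
    ∃ (F : Type) (_ : Field F) (_ : NumberField F) (_ : IsGalois ℚ F)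
      (_ : Algebra F Qb) (_ : IsScalarTower ℚ F Qb),
      ∀ σ : Γ, σ ∈ (AlgEquiv.restrictNormalHom (F := ℚ) (K₁ := Qb) F).ker →
        ∀ x ∈ L, σ x = x := by
  have hnf : NumberField ↥L := ⟨⟩
  have hgal : IsGalois ℚ ↥L := ⟨⟩
  refine ⟨↥L, inferInstance, hnf, hgal, inferInstance, inferInstance, fun σ hσ x hx => ?_⟩
  rw [MonoidHom.mem_ker] at hσ
  have h1 := AlgEquiv.restrictNormal_commutes σ ↥L ⟨x, hx⟩
  have h2 : σ.restrictNormal ↥L = 1 := hσ
  rw [h2] at h1
  exact h1.symm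

/-- **S42 from S29.** -/
theorem s42_of_attach (P : FreyPackage)
    (h29 : ∀ (N : ℕ) (g : CuspForm (CongruenceSubgroup.Gamma0 N) 2), g.IsNormalizedEigenform →
      ∀ (p : ℕ), p.Prime → ∀ (k : Type) [Field k] [CharP k p]
      (φ : integralClosure ℤ ℂ →+* k),
      ∃ ρ : ResidualGaloisRep k, ρ.IsAttachedTo g φ ∧
        ∀ ℓ : ℕ, ℓ.Prime → ¬ ℓ ∣ N * p → ρ.IsUnramifiedAt ℓ) :
    ∀ M : ℕ, 0 < M → P.EigenformResidualAttachmentAt M := by
  intro M _ g hg 𝔪 h𝔪 hp𝔪
  -- the residue field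
  letI : Field (integralClosure ℤ ℂ ⧸ 𝔪) := Ideal.Quotient.field 𝔪
  have hp0 : ((P.p : ℕ) : integralClosure ℤ ℂ ⧸ 𝔪) = 0 := by
    have h1 : (Ideal.Quotient.mk 𝔪) ((P.p : ℕ) : integralClosure ℤ ℂ) = 0 :=
      Ideal.Quotient.eq_zero_iff_mem.mpr hp𝔪
    rwa [map_natCast] at h1
  haveI hchar : CharP (integralClosure ℤ ℂ ⧸ 𝔪) P.p := by
    obtain ⟨c, hc⟩ := CharP.exists (integralClosure ℤ ℂ ⧸ 𝔪)
    have hdvd : c ∣ P.p := (CharP.cast_eq_zero_iff (integralClosure ℤ ℂ ⧸ 𝔪) c P.p).mp hp0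
    rcases (Nat.dvd_prime P.pp).mp hdvd with h1 | h1
    · exact absurd h1 (CharP.char_ne_one (integralClosure ℤ ℂ ⧸ 𝔪) c)
    · exact h1 ▸ hc
  obtain ⟨ρ, hatt, -⟩ := h29 M g hg P.p P.pp (integralClosure ℤ ℂ ⧸ 𝔪) (Ideal.Quotient.mk 𝔪)
  -- the number field
  obtain ⟨L1, hL1fd, hL1⟩ := ρ.factorsThroughFiniteLevel
  obtain ⟨L2, hL2fd, -, hL2⟩ := s42_frey_level P
  obtain ⟨L, hLfd, hLn, hLS⟩ : ∃ L : IntermediateField ℚ Qb, FiniteDimensional ℚ L ∧
      Normal ℚ L ∧ L1 ⊔ L2 ≤ L := by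
    have hAC : IsAlgClosure ℚ Qb := AlgebraicClosure.instIsAlgClosure ℚ
    have hfd : FiniteDimensional ℚ ↥(L1 ⊔ L2) := IntermediateField.finiteDimensional_sup L1 L2
    exact ⟨IntermediateField.normalClosure ℚ ↥(L1 ⊔ L2) Qb,
      normalClosure.is_finiteDimensional ℚ ↥(L1 ⊔ L2) Qb,
      normalClosure.normal ℚ ↥(L1 ⊔ L2) Qb, IntermediateField.le_normalClosure _⟩
  obtain ⟨F, i1, i2, i3, i4, i5, hF⟩ := s42_exists_field L hLfd hLn
  have hℓ0 : ∀ ℓ : ℕ, ℓ.Prime → ℓ ≠ P.p → ((ℓ : ℕ) : integralClosure ℤ ℂ ⧸ 𝔪) ≠ 0 := by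
    intro ℓ hℓ hne h0
    have hdvd : P.p ∣ ℓ := (CharP.cast_eq_zero_iff (integralClosure ℤ ℂ ⧸ 𝔪) P.p ℓ).mp h0
    exact hne ((Nat.prime_dvd_prime_iff_eq P.pp hℓ).mp hdvd).symm
  refine ⟨integralClosure ℤ ℂ ⧸ 𝔪, inferInstance, ZMod.algebra _ P.p, ρ.V, inferInstance,
    inferInstance, ρ.ρ, Ideal.Quotient.mk 𝔪, F, i1, i2, i3, i4, i5, ?_, ρ.finrank_eq, ?_, ?_, ?_⟩
  · rw [Ideal.mk_ker]
  · intro σ hσ
    have hfix : ∀ x ∈ L, σ x = x := hF σ hσ
    refine Subgroup.mem_inf.mpr ⟨?_, ?_⟩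
    · rw [MonoidHom.mem_ker]
      refine LinearMap.ext fun x => ?_
      exact hL2 σ (fun x hx => hfix x (hLS ((le_sup_right : L2 ≤ L1 ⊔ L2) hx))) x
    · rw [MonoidHom.mem_ker]
      exact hL1 σ (fun x hx => hfix x (hLS ((le_sup_left : L1 ≤ L1 ⊔ L2) hx)))
  · intro ℓ hℓ hℓM hℓp A hA τ hτ
    obtain ⟨a, ha, hchar⟩ := hatt ℓ hℓ hℓM (hℓ0 ℓ hℓ hℓp) A hA τ hτ
    exact ⟨a, ha, s42_trace_of_charpoly ρ.finrank_eq (ρ.ρ τ) _ _ hchar⟩
  · intro ℓ hℓ hℓM hℓp A hA τ hτ
    obtain ⟨a, -, hchar⟩ := hatt ℓ hℓ hℓM (hℓ0 ℓ hℓ hℓp) A hA τ hτ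
    exact s42_det_of_charpoly ρ.finrank_eq (ρ.ρ τ) _ _ hchar

end Fermat.Agent.S42
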